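import Fermat.Agent.Kneser.Stabilizer

/-!
# Kneser's addition theorem

For finite nonempty subsets `A`, `B` of an abelian group, with `H` the stabilizer of `A + B`,
`|A + H| + |B + H| ≤ |A + B| + |H|`. Every point of `A + B` lies in a subset `C` with
`|A| + |B| ≤ |C| + |stab C|` (take an e-transform with smallest second set), and the union lemma
glues these.
-/

set_option autoImplicit false

namespace FA.Kneser

open Finset
open scoped Pointwise

variable {G : Type*} [AddCommGroup G] [DecidableEq G] {A B : Finset G}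

theorem exists_piece {a b : G} (ha : a ∈ A) (hb : b ∈ B) :
    ∃ C : Finset G, a + b ∈ C ∧ C ⊆ A + B ∧ A.card + B.card ≤ C.card + (fstab C).card := by
  classical
  have hex : ∃ n : ℕ, ∃ A' B' : Finset G, a ∈ A' ∧ b ∈ B' ∧ A' + B' ⊆ A + B ∧
      A'.card + B'.card = A.card + B.card ∧ B'.card = n :=
    ⟨_, A, B, ha, hb, Subset.rfl, rfl, rfl⟩
  obtain ⟨A', B', ha', hb', hsub, hcard, hn⟩ := Nat.find_spec hex
  have key : ∀ e ∈ A', (e - b) +ᵥ B' ⊆ A' := by
    intro e he
    by_contra hnot
    set A'' := A' ∪ ((e - b) +ᵥ B') with hA''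
    set B'' := B' ∩ ((b - e) +ᵥ A') with hB''
    have hbB : b ∈ B'' := by
      rw [hB'', mem_inter]
      exact ⟨hb', mem_vadd_finset.2 ⟨e, he, by rw [vadd_eq_add, sub_add_cancel]⟩⟩
    have hinter : B''.card = (A' ∩ ((e - b) +ᵥ B')).card := by
      rw [← card_vadd_finset (e - b) B'', hB'', vadd_finset_inter, ← add_vadd,
        sub_add_sub_cancel, sub_self, zero_vadd, inter_comm]
    have hsum : A''.card + B''.card = A.card + B.card := by
      rw [hinter, hA'', card_union_add_card_inter, card_vadd_finset, hcard]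
    have hsub' : A'' + B'' ⊆ A + B := by
      refine Subset.trans ?_ hsub
      intro x hx
      obtain ⟨u, hu, v, hv, rfl⟩ := mem_add.1 hx
      rw [hB'', mem_inter] at hv
      rcases mem_union.1 hu with hu | hu
      · exact add_mem_add hu hv.1
      · obtain ⟨w, hw, rfl⟩ := mem_vadd_finset.1 hu
        obtain ⟨y, hy, rfl⟩ := mem_vadd_finset.1 hv.2
        refine mem_add.2 ⟨y, hy, w, hw, ?_⟩
        simp only [vadd_eq_add]
        abel
    have hlt : B''.card < B'.card := by
      rw [hinter, ← card_vadd_finset (e - b) B']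
      refine card_lt_card ⟨inter_subset_right, fun h => hnot ?_⟩
      exact h.trans inter_subset_left
    exact Nat.find_min hex (hn ▸ hlt)
      ⟨A'', B'', mem_union_left _ ha', hbB, hsub', hsum, rfl⟩
  have hA'ne : A'.Nonempty := ⟨a, ha'⟩
  have hC : (b +ᵥ A').Nonempty := hA'ne.vadd_finset
  refine ⟨b +ᵥ A', ?_, ?_, ?_⟩
  · rw [add_comm, ← vadd_eq_add]
    exact vadd_mem_vadd_finset ha'
  · refine Subset.trans ?_ hsub
    intro x hx
    obtain ⟨y, hy, rfl⟩ := mem_vadd_finset.1 hx
    rw [vadd_eq_add, add_comm b y]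
    exact add_mem_add hy hb'
  · rw [card_vadd_finset, ← hcard]
    refine Nat.add_le_add_left (card_le_of_translate (x := -b) fun v hv => ?_) _
    rw [mem_fstab hC, ← add_vadd, add_comm, add_vadd]
    refine congrArg _ (eq_of_subset_of_card_le ?_ (by rw [card_vadd_finset]))
    intro x hx
    obtain ⟨e, he, rfl⟩ := mem_vadd_finset.1 hx
    refine key e he (mem_vadd_finset.2 ⟨v, hv, ?_⟩)
    simp only [vadd_eq_add]
    abel

theorem card_add_card_le (hA : A.Nonempty) (hB : B.Nonempty) :
    A.card + B.card ≤ (A + B).card + (fstab (A + B)).card := by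
  classical
  have h : ∀ s : Finset G, s.Nonempty → s ⊆ A + B →
      ∃ C, s ⊆ C ∧ C ⊆ A + B ∧ A.card + B.card ≤ C.card + (fstab C).card := by
    intro s hs
    induction hs using Finset.Nonempty.cons_induction with
    | singleton x =>
      intro hx
      obtain ⟨a, ha, b, hb, rfl⟩ := mem_add.1 (hx (mem_singleton_self x))
      obtain ⟨C, h1, h2, h3⟩ := exists_piece ha hb
      exact ⟨C, singleton_subset_iff.2 h1, h2, h3⟩
    | cons x s hxs hs ih =>
      intro hsub
      rw [cons_eq_insert, insert_subset_iff] at hsub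
      obtain ⟨a, ha, b, hb, rfl⟩ := mem_add.1 hsub.1
      obtain ⟨C, h1, h2, h3⟩ := exists_piece ha hb
      obtain ⟨D, k1, k2, k3⟩ := ih hsub.2
      refine ⟨C ∪ D, ?_, union_subset h2 k2, ?_⟩
      · rw [cons_eq_insert]
        exact insert_subset (mem_union_left _ h1) (k1.trans subset_union_right)
      · rcases card_add_card_fstab_union ⟨_, h1⟩ (hs.mono k1) with h | h
        · exact h3.trans h
        · exact k3.trans h
  obtain ⟨C, h1, h2, h3⟩ := h (A + B) (hA.add hB) Subset.rfl
  rwa [subset_antisymm h2 h1] at h3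

/-- **Kneser's addition theorem.** -/
theorem card_add_fstab_add_card_le (hA : A.Nonempty) (hB : B.Nonempty) :
    (A + fstab (A + B)).card + (B + fstab (A + B)).card ≤
      (A + B).card + (fstab (A + B)).card := by
  have hC := hA.add hB
  have hH := fstab_nonempty hC
  have h := card_add_card_le (hA.add hH) (hB.add hH)
  rwa [add_add_add_comm, fstab_add_fstab hC, add_fstab hC] at h

end FA.Kneser
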