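import Fermat.Agent.Kneser.Kneser
import Mathlib.Data.ZMod.Basic
import Mathlib.Data.Set.Card
import Mathlib.Tactic.Ring

/-!
# Consequences of Kneser's theorem: Chowla's theorem
-/

set_option autoImplicit false

namespace FA.Kneser

open Finset
open scoped Pointwise

variable {G : Type*} [AddCommGroup G]

/-- Kneser's theorem for sets, with Mathlib's stabilizer. -/
theorem kneser_set {A B : Set G} (hA : A.Finite) (hA' : A.Nonempty) (hB : B.Finite)
    (hB' : B.Nonempty) :
    (A + (AddAction.stabilizer G (A + B) : Set G)).ncard +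
        (B + (AddAction.stabilizer G (A + B) : Set G)).ncard ≤
      (A + B).ncard + Nat.card (AddAction.stabilizer G (A + B)) := by
  classical
  lift A to Finset G using hA
  lift B to Finset G using hB
  rw [coe_nonempty] at hA' hB'
  rw [← SetLike.coe_sort_coe, Nat.card_coe_set_eq, ← coe_add, ← coe_fstab (hA'.add hB'),
    ← coe_add, ← coe_add, Set.ncard_coe_finset, Set.ncard_coe_finset, Set.ncard_coe_finset,
    Set.ncard_coe_finset]
  exact card_add_fstab_add_card_le hA' hB'

/-- Either `|A + B| ≥ |A| + |B| - 1`, or `A + B` is periodic. -/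
theorem card_le_or_periodic [DecidableEq G] {A B : Finset G} (hA : A.Nonempty) (hB : B.Nonempty) :
    A.card + B.card ≤ (A + B).card + 1 ∨ ∃ g : G, g ≠ 0 ∧ g +ᵥ (A + B) = A + B := by
  by_cases h : ∃ g : G, g ≠ 0 ∧ g +ᵥ (A + B) = A + B
  · exact Or.inr h
  left
  have hH : fstab (A + B) = {0} := by
    refine eq_singleton_iff_unique_mem.2 ⟨zero_mem_fstab (hA.add hB), fun g hg => ?_⟩
    by_contra hne
    exact h ⟨g, hne, (mem_fstab (hA.add hB)).1 hg⟩
  have := card_add_card_le hA hB
  rwa [hH, card_singleton] at this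

/-- **Chowla's theorem**: Cauchy-Davenport modulo any `n`, when `0 ∈ B` and the other elements of
`B` are units. -/
theorem chowla_card {n : ℕ} [NeZero n] {A B : Finset (ZMod n)} (hA : A.Nonempty) (h0 : 0 ∈ B)
    (hB : ∀ b ∈ B, b ≠ 0 → IsUnit b) : min n (A.card + B.card - 1) ≤ (A + B).card := by
  have hAB : (A + B).Nonempty := hA.add ⟨0, h0⟩
  by_cases hunit : ∃ u ∈ fstab (A + B), IsUnit u
  · obtain ⟨u, hu, v, rfl⟩ := hunit
    refine (min_le_left _ _).trans ?_
    have hall : ∀ k : ℕ, (k • (v : ZMod n)) ∈ fstab (A + B) := by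
      intro k
      induction k with
      | zero => simpa using zero_mem_fstab hAB
      | succ k ih =>
        rw [succ_nsmul]
        exact add_mem_fstab hAB ih hu
    obtain ⟨c, hc⟩ := hAB
    have : (Finset.univ : Finset (ZMod n)) ⊆ A + B := by
      intro x _
      have h := hall (((x - c) * (↑v⁻¹ : ZMod n)).val)
      rw [nsmul_eq_mul, ZMod.natCast_zmod_val, mul_assoc, Units.inv_mul, mul_one] at h
      have := (add_fstab_mem_iff ⟨c, hc⟩ h c).2 hc
      rwa [add_sub_cancel] at this
    have := card_le_card this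
    rwa [card_univ, ZMod.card] at this
  · push Not at hunit
    refine (min_le_right _ _).trans ?_
    have h := card_add_fstab_add_card_le hA ⟨0, h0⟩
    set H := fstab (A + B) with hH
    have h1 : A.card ≤ (A + H).card :=
      card_le_card fun a ha => mem_add.2 ⟨a, ha, 0, zero_mem_fstab hAB, add_zero a⟩
    have h2 : (B.erase 0).card + H.card ≤ (B + H).card := by
      rw [← card_union_of_disjoint]
      · refine card_le_card (union_subset (fun b hb => ?_) fun g hg => ?_)
        · exact mem_add.2 ⟨b, mem_of_mem_erase hb, 0, zero_mem_fstab hAB, add_zero b⟩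
        · exact mem_add.2 ⟨0, h0, g, hg, zero_add g⟩
      · rw [disjoint_left]
        intro b hb hbH
        exact hunit b hbH (hB b (mem_of_mem_erase hb) (ne_of_mem_erase hb))
    rw [card_erase_of_mem h0] at h2
    have : 1 ≤ B.card := card_pos.2 ⟨0, h0⟩
    omega

end FA.Kneser
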