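import Fermat.Agent.Kneser.Kneser
import Mathlib.Combinatorics.Additive.CauchyDavenport
import Mathlib.Algebra.GCDMonoid.Finset
import Mathlib.GroupTheory.Archimedean
import Mathlib.Data.ZMod.Basic
import Mathlib.RingTheory.Int.Basic
import Mathlib.Tactic.LinearCombination

/-!
# Freiman's `3k - 4` theorem

A set of `k` integers with `|A + A| ≤ 3k - 4` lies in a progression of length `|A + A| - k + 1`.
Project modulo the largest element, apply Kneser's theorem, and count one coset sum twice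
(Lev and Smeliansky).
-/

set_option autoImplicit false

namespace FA.Kneser

open Finset
open scoped Pointwise

/-- In normal form (`0` smallest, `ℓ` largest, gcd one), `|A + A| ≥ min (ℓ + k) (3k - 3)`. -/
theorem freiman_core {A : Finset ℤ} {ℓ : ℕ} (hℓ : 0 < ℓ) (h0 : 0 ∈ A) (hℓA : (ℓ : ℤ) ∈ A)
    (hbd : ∀ x ∈ A, 0 ≤ x ∧ x ≤ ℓ) (hgen : ∀ e : ℤ, (∀ x ∈ A, e ∣ x) → IsUnit e) :
    min (ℓ + A.card) (3 * A.card - 3) ≤ (A + A).card := by
  classical
  have : NeZero ℓ := ⟨hℓ.ne'⟩
  set π : ℤ → ZMod ℓ := fun x => (x : ZMod ℓ) with hπ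
  set Ā := A.image π with hĀ
  have hπadd : ∀ x y, π (x + y) = π x + π y := fun x y => Int.cast_add x y
  have hinj : Set.InjOn π (A.erase (ℓ : ℤ) : Set ℤ) := by
    intro x hx y hy hxy
    rw [coe_erase, Set.mem_sdiff, Set.mem_singleton_iff] at hx hy
    obtain ⟨h1, h2⟩ := hbd x hx.1
    obtain ⟨h3, h4⟩ := hbd y hy.1
    have h5 := (ZMod.intCast_eq_intCast_iff' x y ℓ).1 hxy
    rwa [Int.emod_eq_of_lt h1 (lt_of_le_of_ne h2 hx.2),
      Int.emod_eq_of_lt h3 (lt_of_le_of_ne h4 hy.2)] at h5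
  have hĀe : Ā = (A.erase (ℓ : ℤ)).image π := by
    refine subset_antisymm (fun r hr => ?_) (image_subset_image (erase_subset _ _))
    obtain ⟨x, hx, rfl⟩ := mem_image.1 hr
    by_cases hxl : x = ℓ
    · refine mem_image.2 ⟨0, mem_erase.2 ⟨by omega, h0⟩, ?_⟩
      simp [hπ, hxl]
    · exact mem_image_of_mem _ (mem_erase.2 ⟨hxl, hx⟩)
  have hĀcard : Ā.card + 1 = A.card := by
    rw [hĀe, card_image_of_injOn hinj, card_erase_add_one hℓA]
  have hĀne : Ā.Nonempty := ⟨π 0, mem_image_of_mem _ h0⟩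
  set C := Ā + Ā with hC
  have hCne : C.Nonempty := hĀne.add hĀne
  have hπA : ∀ x ∈ A + A, π x ∈ C := by
    intro x hx
    obtain ⟨a, ha, b, hb, rfl⟩ := mem_add.1 hx
    rw [hπadd]
    exact add_mem_add (mem_image_of_mem _ ha) (mem_image_of_mem _ hb)
  -- the sums over residues in `Ā`
  set U := A ∪ (A.image fun x => x + (ℓ : ℤ)) with hU
  have hUcard : 2 * A.card ≤ U.card + 1 := by
    have h1 := card_union_add_card_inter A (A.image fun x => x + (ℓ : ℤ))
    rw [← hU, card_image_of_injective _ (add_left_injective _)] at h1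
    have h2 : (A ∩ A.image fun x => x + (ℓ : ℤ)).card ≤ 1 := by
      refine (card_le_card (t := {(ℓ : ℤ)}) fun x hx => ?_).trans (card_singleton _).le
      rw [mem_inter, mem_image] at hx
      obtain ⟨h3, y, hy, rfl⟩ := hx
      rw [mem_singleton]
      linarith [(hbd y hy).1, (hbd _ h3).2]
    omega
  have hUsub : U ⊆ A + A := by
    refine union_subset (fun x hx => mem_add.2 ⟨x, hx, 0, h0, add_zero x⟩) fun x hx => ?_
    obtain ⟨y, hy, rfl⟩ := mem_image.1 hx
    exact add_mem_add hy hℓA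
  have hUπ : ∀ x ∈ U, π x ∈ Ā := by
    intro x hx
    rcases mem_union.1 hx with hx | hx
    · exact mem_image_of_mem _ hx
    · obtain ⟨y, hy, rfl⟩ := mem_image.1 hx
      rw [hπadd, show π (ℓ : ℤ) = 0 by simp [hπ], add_zero]
      exact mem_image_of_mem _ hy
  -- a general lower bound
  have key : ∀ (S : Finset (ZMod ℓ)) (T : Finset ℤ), T ⊆ A + A → (∀ x ∈ T, π x ∈ S) →
      Disjoint S Ā → C.card + A.card + T.card ≤ (A + A).card + S.card := by
    intro S T hT hTS hdis
    set R := (A + A).filter fun x => π x ∉ S ∧ π x ∉ Ā with hR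
    have hRcard : C.card ≤ R.card + S.card + Ā.card := by
      have h1 : C ⊆ R.image π ∪ S ∪ Ā := by
        intro r hr
        obtain ⟨u, hu, v, hv, rfl⟩ := mem_add.1 hr
        obtain ⟨a, ha, rfl⟩ := mem_image.1 hu
        obtain ⟨b, hb, rfl⟩ := mem_image.1 hv
        rw [mem_union, mem_union, ← hπadd]
        by_cases h1 : π (a + b) ∈ S
        · exact Or.inl (Or.inr h1)
        by_cases h2 : π (a + b) ∈ Ā
        · exact Or.inr h2
        exact Or.inl (Or.inl (mem_image_of_mem _ (mem_filter.2 ⟨add_mem_add ha hb, h1, h2⟩)))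
      refine (card_le_card h1).trans ((card_union_le _ _).trans ?_)
      refine Nat.add_le_add_right ((card_union_le _ _).trans ?_) _
      exact Nat.add_le_add_right card_image_le _
    have hdisU : Disjoint U T := disjoint_left.2 fun x h1 h2 =>
      disjoint_left.1 hdis (hTS x h2) (hUπ x h1)
    have hdisR : Disjoint (U ∪ T) R := by
      rw [disjoint_left]
      intro x hx hxR
      rw [hR, mem_filter] at hxR
      rcases mem_union.1 hx with hx | hx
      · exact hxR.2.2 (hUπ x hx)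
      · exact hxR.2.1 (hTS x hx)
    have htot := card_le_card (union_subset (union_subset hUsub hT)
      (filter_subset (fun x => π x ∉ S ∧ π x ∉ Ā) (A + A)))
    rw [← hR, card_union_of_disjoint hdisR, card_union_of_disjoint hdisU] at htot
    omega
  rcases eq_or_ne C Finset.univ with hCu | hCu
  · refine (min_le_left _ _).trans ?_
    have h1 := key ∅ ∅ (empty_subset _) (by simp) (disjoint_empty_left _)
    simp only [hCu, card_univ, ZMod.card, card_empty] at h1
    omega
  -- there is a coset sum outside `Ā + H`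
  set H := fstab C with hH
  have hKn := card_add_fstab_add_card_le hĀne hĀne
  rw [← hC, ← hH] at hKn
  set K := Ā + H with hK
  obtain ⟨x, hx, y, hy, hxy⟩ : ∃ x ∈ Ā, ∃ y ∈ Ā, x + y ∉ K := by
    by_contra! hcon
    have hstab : ∀ x ∈ Ā, x ∈ fstab K := by
      intro x hx
      rw [mem_fstab (hĀne.add (fstab_nonempty hCne))]
      refine eq_of_subset_of_card_le (fun z hz => ?_) (card_vadd_finset x K).ge
      obtain ⟨w, hw, rfl⟩ := mem_vadd_finset.1 hz
      obtain ⟨u, hu, g, hg, rfl⟩ := mem_add.1 hw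
      obtain ⟨u', hu', g', hg', he⟩ := mem_add.1 (hcon x hx u hu)
      refine mem_add.2 ⟨u', hu', g' + g, add_mem_fstab hCne hg' hg, ?_⟩
      rw [vadd_eq_add, ← add_assoc, he, add_assoc]
    have hKne : K.Nonempty := hĀne.add (fstab_nonempty hCne)
    set L : AddSubgroup ℤ :=
      (AddAction.stabilizer (ZMod ℓ) (K : Set (ZMod ℓ))).comap (Int.castAddHom (ZMod ℓ)) with hL
    have hmem : ∀ z, z ∈ L ↔ π z ∈ fstab K := by
      intro z
      rw [hL, AddSubgroup.mem_comap, ← SetLike.mem_coe, ← coe_fstab hKne, mem_coe]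
      rfl
    obtain ⟨e, he⟩ := Int.subgroup_cyclic L
    have hdvd : ∀ z, z ∈ L → e ∣ z := by
      intro z hz
      rw [he, AddSubgroup.mem_closure_singleton] at hz
      obtain ⟨k, rfl⟩ := hz
      exact ⟨k, by rw [zsmul_eq_mul, Int.cast_id, mul_comm]⟩
    have hunit := hgen e fun z hz => hdvd z ((hmem z).2 (hstab _ (mem_image_of_mem _ hz)))
    have hone : ∀ z : ℤ, z ∈ L := by
      intro z
      rw [he, AddSubgroup.mem_closure_singleton]
      obtain ⟨k, hk⟩ := hunit.dvd (a := z)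
      exact ⟨k, by rw [zsmul_eq_mul, Int.cast_id, hk, mul_comm]⟩
    refine hCu (eq_univ_of_forall fun r => ?_)
    obtain ⟨c, hc⟩ := hKne
    obtain ⟨z, rfl⟩ := ZMod.intCast_surjective r
    obtain ⟨w, hw⟩ := ZMod.intCast_surjective ((z : ZMod ℓ) - c)
    have hrK : (z : ZMod ℓ) ∈ K := by
      have := (add_fstab_mem_iff ⟨c, hc⟩ ((hmem w).1 (hone w)) c).2 hc
      rwa [hπ, show c + (fun x : ℤ => (x : ZMod ℓ)) w = z by
        simp only [hw]; exact add_sub_cancel c _] at this
    obtain ⟨u, hu, g, hg, hug⟩ := mem_add.1 hrK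
    rw [← hug, add_fstab_mem_iff hCne hg]
    exact mem_add.2 ⟨u, hu, π 0, mem_image_of_mem _ h0, by simp [hπ]⟩
  refine (min_le_right _ _).trans ?_
  -- the class `x + y + H`
  set S := (x + y) +ᵥ H with hS
  have hScard : S.card = H.card := card_vadd_finset _ _
  have hdis : Disjoint S Ā := by
    rw [disjoint_left]
    intro r hr hrA
    obtain ⟨g, hg, rfl⟩ := mem_vadd_finset.1 hr
    refine hxy (mem_add.2 ⟨_, hrA, -g, neg_mem_fstab hCne hg, ?_⟩)
    rw [vadd_eq_add, add_neg_cancel_right]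
  have hclass : ∀ z ∈ Ā, Ā.card + H.card ≤ K.card + (A.filter fun a => π a ∈ z +ᵥ H).card := by
    intro z hz
    have h1 : Ā ∪ (z +ᵥ H) ⊆ K := union_subset
      (fun r hr => mem_add.2 ⟨r, hr, 0, zero_mem_fstab hCne, add_zero r⟩) fun r hr => by
        obtain ⟨g, hg, rfl⟩ := mem_vadd_finset.1 hr
        exact add_mem_add hz hg
    have h2 : (Ā ∩ (z +ᵥ H)).card ≤ (A.filter fun a => π a ∈ z +ᵥ H).card := by
      refine (card_le_card fun r hr => ?_).trans (card_image_le (f := π))
      rw [mem_inter] at hr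
      obtain ⟨a, ha, rfl⟩ := mem_image.1 hr.1
      exact mem_image_of_mem _ (mem_filter.2 ⟨ha, hr.2⟩)
    have h3 := card_union_add_card_inter Ā (z +ᵥ H)
    rw [card_vadd_finset] at h3
    have := card_le_card h1
    omega
  set Ax := A.filter fun a => π a ∈ x +ᵥ H with hAx
  set Ay := A.filter fun a => π a ∈ y +ᵥ H with hAy
  have hzero : (0 : ZMod ℓ) ∈ H := zero_mem_fstab hCne
  have hAxne : Ax.Nonempty := by
    obtain ⟨a, ha, rfl⟩ := mem_image.1 hx
    exact ⟨a, mem_filter.2 ⟨ha, mem_vadd_finset.2 ⟨0, hzero, by rw [vadd_eq_add, add_zero]⟩⟩⟩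
  have hAyne : Ay.Nonempty := by
    obtain ⟨a, ha, rfl⟩ := mem_image.1 hy
    exact ⟨a, mem_filter.2 ⟨ha, mem_vadd_finset.2 ⟨0, hzero, by rw [vadd_eq_add, add_zero]⟩⟩⟩
  have hT : ∀ z ∈ Ax + Ay, π z ∈ S := by
    intro z hz
    obtain ⟨a, ha, b, hb, rfl⟩ := mem_add.1 hz
    obtain ⟨g, hg, hga⟩ := mem_vadd_finset.1 (mem_filter.1 ha).2
    obtain ⟨g', hg', hgb⟩ := mem_vadd_finset.1 (mem_filter.1 hb).2
    rw [hπadd, ← hga, ← hgb]
    refine mem_vadd_finset.2 ⟨g + g', add_mem_fstab hCne hg hg', ?_⟩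
    simp only [vadd_eq_add]
    abel
  have h1 := key S (Ax + Ay) (add_subset_add (filter_subset _ _) (filter_subset _ _)) hT hdis
  have h2 := cauchy_davenport_add_of_linearOrder_isCancelAdd hAxne hAyne
  have h3 := hclass x hx
  have h4 := hclass y hy
  rw [← hAx] at h3
  rw [← hAy] at h4
  omega

/-- **Freiman's `3k - 4` theorem.** -/
theorem freiman_three_k {A : Finset ℤ} (h : (A + A).card + 4 ≤ 3 * A.card) :
    ∃ a d : ℤ, A ⊆ (range ((A + A).card + 1 - A.card)).image fun i : ℕ => a + (i : ℤ) * d := by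
  classical
  rcases A.eq_empty_or_nonempty with rfl | hne
  · exact ⟨0, 0, empty_subset _⟩
  set a := A.min' hne with ha
  set d := A.gcd (fun x => x - a) with hd
  have hk : 2 ≤ A.card := by
    have := card_le_card_add_right (s := A) hne
    omega
  have hd0 : d ≠ 0 := by
    intro h0
    rw [hd, Finset.gcd_eq_zero_iff] at h0
    obtain ⟨x, hx, hxa⟩ := exists_mem_ne (by omega : 1 < A.card) a
    exact hxa (sub_eq_zero.1 (h0 x hx))
  have hdpos : 0 < d := by
    rcases lt_or_gt_of_ne hd0 with hlt | hgt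
    · have hn : normalize d = d := Finset.normalize_gcd
      rw [Int.normalize_of_nonpos hlt.le] at hn
      omega
    · exact hgt
  set φ : ℤ → ℤ := fun x => (x - a) / d with hφ
  have hmul : ∀ x ∈ A, x = a + φ x * d := fun x hx => by
    rw [hφ, Int.ediv_mul_cancel (Finset.gcd_dvd (f := fun x => x - a) hx)]
    ring
  set B := A.image φ with hB
  have hBcard : B.card = A.card := card_image_of_injOn fun x hx y hy hxy => by
    rw [hmul x hx, hmul y hy, hxy]
  have hAA : (B + B).card ≤ (A + A).card := by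
    refine card_le_card_of_injOn (fun z => 2 * a + z * d) (fun z hz => ?_) fun z _ w _ hzw => ?_
    · obtain ⟨u, hu, v, hv, rfl⟩ := mem_add.1 hz
      obtain ⟨x, hx, rfl⟩ := mem_image.1 hu
      obtain ⟨y, hy, rfl⟩ := mem_image.1 hv
      have e : 2 * a + (φ x + φ y) * d = x + y := by linear_combination -(hmul x hx) - hmul y hy
      simp only [mem_coe, e]
      exact add_mem_add hx hy
    · exact mul_right_cancel₀ hd0 (add_left_cancel hzw)
  have hnonneg : ∀ x ∈ A, 0 ≤ φ x := fun x hx =>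
    Int.ediv_nonneg (sub_nonneg.2 (min'_le A x hx)) hdpos.le
  obtain ⟨ℓ, hℓ⟩ : ∃ ℓ : ℕ, (ℓ : ℤ) = B.max' (hne.image φ) := by
    obtain ⟨x, hx, hxe⟩ := mem_image.1 (max'_mem B (hne.image φ))
    exact ⟨(φ x).toNat, by rw [Int.toNat_of_nonneg (hnonneg x hx), hxe]⟩
  have hB0 : (0 : ℤ) ∈ B := mem_image.2 ⟨a, min'_mem A hne, by simp [hφ]⟩
  have hBl : (ℓ : ℤ) ∈ B := hℓ ▸ max'_mem B _
  have hbd : ∀ z ∈ B, 0 ≤ z ∧ z ≤ ℓ := fun z hz => by
    refine ⟨?_, hℓ ▸ le_max' B z hz⟩
    obtain ⟨x, hx, rfl⟩ := mem_image.1 hz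
    exact hnonneg x hx
  have hℓ0 : 0 < ℓ := by
    by_contra h0
    have : B ⊆ {0} := fun z hz => by
      rw [mem_singleton]
      have := hbd z hz
      omega
    have := card_le_card this
    rw [card_singleton] at this
    omega
  have hgen : ∀ e : ℤ, (∀ z ∈ B, e ∣ z) → IsUnit e := by
    intro e he
    have : e * d ∣ d := Finset.dvd_gcd (f := fun x => x - a) fun x hx => by
      obtain ⟨k, hk⟩ := he _ (mem_image_of_mem φ hx)
      exact ⟨k, by linear_combination (hmul x hx) + d * hk⟩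
    obtain ⟨k, hk⟩ := this
    refine IsUnit.of_mul_eq_one k ?_
    have h1 : d * (e * k) = d * 1 := by rw [mul_one]; linear_combination -hk
    exact mul_left_cancel₀ hd0 h1
  have hcore := freiman_core hℓ0 hB0 hBl hbd hgen
  refine ⟨a, d, fun x hx => mem_image.2 ⟨(φ x).toNat, mem_range.2 ?_, ?_⟩⟩
  · have h1 := hbd _ (mem_image_of_mem φ hx)
    have h2 : ℓ + A.card ≤ (A + A).card := by omega
    omega
  · rw [Int.toNat_of_nonneg (hnonneg x hx)]
    exact (hmul x hx).symm

end FA.Kneser
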