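import Mathlib.Combinatorics.Schnirelmann
import Mathlib.Algebra.Group.Pointwise.Finset.Basic
import Mathlib.Tactic.Linarith
import Mathlib.Tactic.Ring

/-!
# Mann's theorem, after Dyson

If `0 ∈ A ∩ B` and `A (m) + B (m) ≥ θ m` for all `m ≤ n`, where `A (m)` counts `A ∩ [1, m]` and
`θ ≤ 1`, then `(A + B) (n) ≥ θ n`. Induction on `n` and on `|B|`, by Dyson's transform.
-/

set_option autoImplicit false

namespace FA.Kneser

open Finset
open scoped Pointwise

/-- The number of elements of `S` in `[1, m]`. -/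
def cnt (S : Finset ℕ) (m : ℕ) : ℕ := (S ∩ Ioc 0 m).card

theorem cnt_mono_right (S : Finset ℕ) {m n : ℕ} (h : m ≤ n) : cnt S m ≤ cnt S n :=
  card_le_card (inter_subset_inter Subset.rfl (Ioc_subset_Ioc le_rfl h))

theorem cnt_mono_left {S T : Finset ℕ} (h : S ⊆ T) (m : ℕ) : cnt S m ≤ cnt T m :=
  card_le_card (inter_subset_inter h Subset.rfl)

theorem cnt_sdiff {S T : Finset ℕ} (h : T ⊆ S) (m : ℕ) : cnt (S \ T) m + cnt T m = cnt S m := by
  rw [cnt, cnt, cnt, ← card_union_of_disjoint, ← union_inter_distrib_right,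
    sdiff_union_of_subset h]
  exact disjoint_sdiff_self_left.mono inter_subset_left inter_subset_left

/-- The key count in Dyson's argument. -/
theorem dyson_count {A B : Finset ℕ} (hA : 0 ∈ A) {e : ℕ}
    (he : ∀ a ∈ A, a < e → ∀ b ∈ B, a + b ∈ A) {θ : ℝ} (hθ1 : θ ≤ 1) {m n : ℕ} (hmn : m ≤ n)
    (hyp : ∀ m ≤ n, θ * m ≤ cnt A m + cnt B m)
    (ih : ∀ r < n, θ * r ≤ cnt (A + B) r) :
    θ * m ≤ cnt A m + cnt B (m - e) := by
  by_cases hex : ∃ b ∈ B, m - e < b ∧ b ≤ m
  · classical
    obtain ⟨hbB, hb1, hb2⟩ := Nat.find_spec hex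
    set b := Nat.find hex with hb
    set r := m - b with hr
    have hre : r < e := by omega
    have hrn : r < n := by omega
    have hCA : cnt (A + B) r ≤ cnt A r := by
      refine card_le_card fun c hc => ?_
      rw [mem_inter, mem_add] at hc
      obtain ⟨⟨a, ha, b', hb', rfl⟩, hc2⟩ := hc
      have hc3 := mem_Ioc.1 hc2
      exact mem_inter.2 ⟨he a ha (by omega) b' hb', hc2⟩
    have hBe : cnt B (b - 1) ≤ cnt B (m - e) := by
      refine card_le_card fun x hx => ?_
      rw [mem_inter, mem_Ioc] at hx ⊢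
      refine ⟨hx.1, hx.2.1, ?_⟩
      by_contra hlt
      exact Nat.find_min hex (by omega : x < b) ⟨hx.1, by omega, by omega⟩
    have hAm : cnt A (b - 1) + (cnt A r + 1) ≤ cnt A m := by
      have h0 : 0 ∉ A ∩ Ioc 0 r := fun h => by simp at h
      have e1 : cnt A r + 1 = ((insert 0 (A ∩ Ioc 0 r)).image (· + b)).card := by
        rw [card_image_of_injective _ (add_left_injective b), card_insert_of_notMem h0, cnt]
      rw [e1, cnt, cnt, ← card_union_of_disjoint]
      · refine card_le_card (union_subset ?_ fun x hx => ?_)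
        · exact inter_subset_inter Subset.rfl (Ioc_subset_Ioc le_rfl (by omega))
        · rw [mem_image] at hx
          obtain ⟨a, ha, rfl⟩ := hx
          have ha' : a ∈ A ∧ a ≤ r := by
            rcases mem_insert.1 ha with rfl | ha
            · exact ⟨hA, Nat.zero_le _⟩
            · exact ⟨(mem_inter.1 ha).1, (mem_Ioc.1 (mem_inter.1 ha).2).2⟩
          rw [mem_inter, mem_Ioc]
          exact ⟨he a ha'.1 (by omega) b hbB, by omega, by omega⟩
      · rw [disjoint_left]
        intro x hx hx'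
        rw [mem_inter, mem_Ioc] at hx
        rw [mem_image] at hx'
        obtain ⟨a, -, rfl⟩ := hx'
        omega
    have h1 := hyp (b - 1) (by omega)
    have h2 := (ih r hrn).trans (Nat.cast_le.2 hCA)
    have h3 : (m : ℝ) = ((b - 1 : ℕ) : ℝ) + r + 1 := by
      exact_mod_cast (by omega : m = b - 1 + r + 1)
    have h4 : (cnt A (b - 1) : ℝ) + (cnt A r + 1) ≤ cnt A m := by exact_mod_cast hAm
    have h5 : (cnt B (b - 1) : ℝ) ≤ cnt B (m - e) := Nat.cast_le.2 hBe
    rw [h3, mul_add, mul_add, mul_one]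
    linarith
  · refine (hyp m hmn).trans ?_
    have h : cnt B m ≤ cnt B (m - e) := by
      refine card_le_card fun x hx => ?_
      rw [mem_inter, mem_Ioc] at hx ⊢
      refine ⟨hx.1, hx.2.1, ?_⟩
      by_contra hlt
      exact hex ⟨x, hx.1, by omega, hx.2.2⟩
    have : (cnt B m : ℝ) ≤ cnt B (m - e) := Nat.cast_le.2 h
    linarith

/-- **Dyson's form of Mann's theorem.** -/
theorem le_cnt_add {θ : ℝ} (hθ1 : θ ≤ 1) :
    ∀ (n : ℕ) (A B : Finset ℕ), 0 ∈ A → 0 ∈ B →
      (∀ m ≤ n, θ * m ≤ cnt A m + cnt B m) → θ * n ≤ cnt (A + B) n := by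
  classical
  intro n
  induction n using Nat.strong_induction_on with
  | _ n ihn =>
  intro A B
  generalize hk : B.card = k
  induction k using Nat.strong_induction_on generalizing A B with
  | _ k ihk =>
  intro hA hB hyp
  by_cases hpos : ∃ b ∈ B, b ≠ 0
  · obtain ⟨b₀, hb₀, hb₀'⟩ := hpos
    have hex : ∃ e, e ∈ A ∧ ∃ b ∈ B, e + b ∉ A := by
      refine ⟨A.max' ⟨0, hA⟩, max'_mem _ _, b₀, hb₀, fun h => ?_⟩
      have := le_max' A _ h
      omega
    obtain ⟨heA, hne⟩ := Nat.find_spec hex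
    set e := Nat.find hex with hedef
    have hlow : ∀ a ∈ A, a < e → ∀ b ∈ B, a + b ∈ A := by
      intro a ha hae b hb
      by_contra h
      exact Nat.find_min hex hae ⟨ha, b, hb, h⟩
    set B' := B.filter fun b => e + b ∉ A with hB'
    have hB'B : B' ⊆ B := filter_subset _ _
    set A₁ := A ∪ B'.image (e + ·) with hA₁
    set B₁ := B \ B' with hB₁
    have hB₁0 : 0 ∈ B₁ := by
      rw [hB₁, mem_sdiff, hB', mem_filter]
      exact ⟨hB, fun h => h.2 (by rwa [add_zero])⟩
    have hlt : B₁.card < k := by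
      obtain ⟨b, hb, hb'⟩ := hne
      rw [← hk]
      refine card_lt_card (ssubset_iff_of_subset sdiff_subset |>.2 ⟨b, hb, fun h => ?_⟩)
      exact (mem_sdiff.1 h).2 (mem_filter.2 ⟨hb, hb'⟩)
    have hsub : A₁ + B₁ ⊆ A + B := by
      intro x hx
      obtain ⟨u, hu, v, hv, rfl⟩ := mem_add.1 hx
      rw [hB₁, mem_sdiff, hB', mem_filter] at hv
      rcases mem_union.1 hu with hu | hu
      · exact add_mem_add hu hv.1
      · rw [mem_image] at hu
        obtain ⟨w, hw, rfl⟩ := hu
        have hev : e + v ∈ A := by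
          by_contra h
          exact hv.2 ⟨hv.1, h⟩
        exact mem_add.2 ⟨e + v, hev, w, hB'B hw, by omega⟩
    have hstep : ∀ m ≤ n, θ * m ≤ cnt A₁ m + cnt B₁ m := by
      intro m hm
      refine (dyson_count hA hlow hθ1 hm hyp fun r hr =>
        ihn r hr A B hA hB fun j hj => hyp j (by omega)).trans ?_
      have h1 : cnt A m + cnt B' (m - e) ≤ cnt A₁ m := by
        rw [cnt, cnt, cnt, ← card_image_of_injective (B' ∩ Ioc 0 (m - e))
          (add_right_injective e), ← card_union_of_disjoint]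
        · refine card_le_card (union_subset (inter_subset_inter subset_union_left Subset.rfl)
            fun x hx => ?_)
          rw [mem_image] at hx
          obtain ⟨b, hb, rfl⟩ := hx
          rw [mem_inter, mem_Ioc] at hb ⊢
          exact ⟨mem_union_right _ (mem_image_of_mem _ hb.1), by omega, by omega⟩
        · rw [disjoint_left]
          intro x hx hx'
          rw [mem_image] at hx'
          obtain ⟨b, hb, rfl⟩ := hx'
          exact (mem_filter.1 (mem_inter.1 hb).1).2 (mem_inter.1 hx).1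
      have h2 : cnt B (m - e) ≤ cnt B₁ m + cnt B' (m - e) := by
        rw [← cnt_sdiff hB'B (m - e)]
        exact Nat.add_le_add_right (cnt_mono_right _ (Nat.sub_le m e)) _
      exact_mod_cast (by omega : cnt A m + cnt B (m - e) ≤ cnt A₁ m + cnt B₁ m)
    refine (ihk _ hlt A₁ B₁ rfl (mem_union_left _ hA) hB₁0 hstep).trans ?_
    exact Nat.cast_le.2 (cnt_mono_left hsub n)
  · refine (hyp n le_rfl).trans ?_
    have h0 : cnt B n = 0 := by
      rw [cnt, card_eq_zero, ← not_nonempty_iff_eq_empty]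
      rintro ⟨x, hx⟩
      rw [mem_inter, mem_Ioc] at hx
      exact hpos ⟨x, hx.1, by omega⟩
    rw [h0, Nat.cast_zero, add_zero]
    refine Nat.cast_le.2 (cnt_mono_left (fun a ha => ?_) n)
    exact mem_add.2 ⟨a, ha, 0, hB, add_zero a⟩

/-- **Mann's theorem.** -/
theorem mann_density (A B : Set ℕ) [DecidablePred (· ∈ A)] [DecidablePred (· ∈ B)]
    [DecidablePred (· ∈ A + B)] (hA : 0 ∈ A) (hB : 0 ∈ B) :
    min 1 (schnirelmannDensity A + schnirelmannDensity B) ≤ schnirelmannDensity (A + B) := by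
  set θ := min 1 (schnirelmannDensity A + schnirelmannDensity B) with hθ
  rw [le_schnirelmannDensity_iff]
  intro n hn
  rw [le_div_iff₀ (by exact_mod_cast hn)]
  set A' := (range (n + 1)).filter (· ∈ A) with hA'
  set B' := (range (n + 1)).filter (· ∈ B) with hB'
  have hc : ∀ (S : Set ℕ) [DecidablePred (· ∈ S)], ∀ m ≤ n,
      cnt ((range (n + 1)).filter (· ∈ S)) m = ((Ioc 0 m).filter (· ∈ S)).card := by
    intro S _ m hm
    refine congrArg card ?_
    ext x
    simp only [mem_inter, mem_filter, mem_range, mem_Ioc]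
    exact ⟨fun h => ⟨h.2, h.1.2⟩, fun h => ⟨⟨by omega, h.2⟩, h.1⟩⟩
  have h := le_cnt_add (min_le_left 1 (schnirelmannDensity A + schnirelmannDensity B)) n A' B'
    (mem_filter.2 ⟨by simp, hA⟩) (mem_filter.2 ⟨by simp, hB⟩) fun m hm => by
      rw [hA', hB', hc A m hm, hc B m hm]
      refine (mul_le_mul_of_nonneg_right (min_le_right _ _) m.cast_nonneg).trans ?_
      rw [add_mul]
      exact add_le_add schnirelmannDensity_mul_le_card_filter schnirelmannDensity_mul_le_card_filter
  refine h.trans (Nat.cast_le.2 (card_le_card fun x hx => ?_))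
  rw [mem_inter, mem_add] at hx
  obtain ⟨⟨a, ha, b, hb, rfl⟩, hx2⟩ := hx
  exact mem_filter.2 ⟨hx2, Set.add_mem_add (mem_filter.1 ha).2 (mem_filter.1 hb).2⟩

end FA.Kneser
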