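import Fermat.Agent.Kneser.Stabilizer
import Mathlib.Algebra.Field.ZMod
import Mathlib.Data.ZMod.Basic

/-!
# Arithmetic progressions modulo a prime

A set `S ⊆ ℤ / p` is a progression of difference `d ≠ 0` iff translating by `d` produces at most
one new element.
-/

set_option autoImplicit false

namespace FA.Kneser

open Finset
open scoped Pointwise

variable {p : ℕ} [Fact p.Prime] {d : ZMod p} {S T : Finset (ZMod p)}

/-- `d +ᵥ S` has at most one element outside `S`. -/
def IsProg (d : ZMod p) (S : Finset (ZMod p)) : Prop := ((d +ᵥ S) \ S).card ≤ 1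

theorem eq_univ_of_vadd_subset (hd : d ≠ 0) (hS : S.Nonempty) (h : d +ᵥ S ⊆ S) :
    S = Finset.univ := by
  refine eq_univ_of_forall fun x => ?_
  obtain ⟨c, hc⟩ := hS
  have key : ∀ k : ℕ, c + k • d ∈ S := by
    intro k
    induction k with
    | zero => simpa using hc
    | succ k ih =>
      have := h (vadd_mem_vadd_finset (a := d) ih)
      rwa [vadd_eq_add, add_left_comm, ← succ_nsmul'] at this
  have := key ((x - c) * d⁻¹).val
  rwa [nsmul_eq_mul, ZMod.natCast_zmod_val, mul_assoc, inv_mul_cancel₀ hd, mul_one,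
    add_sub_cancel] at this

theorem IsProg.vadd (h : IsProg d S) (t : ZMod p) : IsProg d (t +ᵥ S) := by
  rw [IsProg, ← add_vadd, add_comm, add_vadd, ← vadd_finset_sdiff, card_vadd_finset]
  exact h

theorem IsProg.compl (h : IsProg d S) : IsProg d Sᶜ := by
  have e : (d +ᵥ Sᶜ) \ Sᶜ = S \ (d +ᵥ S) := by
    ext x
    simp only [mem_sdiff, mem_compl, not_not, ← neg_vadd_mem_iff (a := d)]
    exact and_comm
  rw [IsProg, e, card_sdiff_comm (card_vadd_finset d S).symm]
  exact h

theorem IsProg.neg (h : IsProg d S) : IsProg d (-S) := by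
  have e : ((d +ᵥ -S) \ -S).card = (S \ (d +ᵥ S)).card := by
    refine card_bij' (fun x _ => d - x) (fun x _ => d - x) (fun x hx => ?_) (fun x hx => ?_)
      (fun x _ => sub_sub_cancel d x) (fun x _ => sub_sub_cancel d x)
    · simp only [mem_sdiff, ← neg_vadd_mem_iff (a := d), vadd_eq_add, mem_neg'] at hx ⊢
      exact ⟨by simpa [sub_eq_add_neg, add_comm] using hx.1,
        by simpa [sub_eq_add_neg, add_comm] using hx.2⟩
    · simp only [mem_sdiff, ← neg_vadd_mem_iff (a := d), vadd_eq_add, mem_neg'] at hx ⊢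
      exact ⟨by simpa [sub_eq_add_neg, add_comm] using hx.1,
        by simpa [sub_eq_add_neg, add_comm] using hx.2⟩
  rw [IsProg, e, card_sdiff_comm (card_vadd_finset d S).symm]
  exact h

/-- The predicate gives the usual shape of a progression. -/
theorem IsProg.exists_eq_image (h : IsProg d S) (hd : d ≠ 0) (hS : S.Nonempty) :
    ∃ a, S = (range S.card).image fun i => a + i • d := by
  classical
  obtain ⟨s₀, hs₀, hpre⟩ : ∃ s₀ ∈ S, S ≠ Finset.univ → s₀ - d ∉ S := by
    by_cases hu : S = Finset.univ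
    · exact ⟨hS.choose, hS.choose_spec, fun h => absurd hu h⟩
    · by_contra! hc
      refine hu (eq_univ_of_vadd_subset (neg_ne_zero.2 hd) hS fun x hx => ?_)
      obtain ⟨y, hy, rfl⟩ := mem_vadd_finset.1 hx
      rw [vadd_eq_add, neg_add_eq_sub]
      exact (hc y hy).2
  have hin : ∀ i < S.card, s₀ + i • d ∈ S := by
    by_contra! hc
    obtain ⟨j, hj⟩ : ∃ j, j = Nat.find hc := ⟨_, rfl⟩
    obtain ⟨hj1, hj2⟩ := Nat.find_spec hc
    have hmin : ∀ i < Nat.find hc, s₀ + i • d ∈ S := fun i hi => by
      by_contra h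
      exact Nat.find_min hc hi ⟨hi.trans hj1, h⟩
    rw [← hj] at hj1 hj2 hmin
    have hne : S ≠ Finset.univ := fun h => hj2 (h ▸ mem_univ _)
    set R := S \ (range j).image (fun i => s₀ + i • d) with hR
    have hj0 : 0 < j := Nat.pos_of_ne_zero fun h => hj2 (by rw [h, zero_nsmul, add_zero]; exact hs₀)
    have hRne : R.Nonempty := by
      rw [hR, ← card_pos]
      have := le_card_sdiff ((range j).image fun i => s₀ + i • d) S
      have := card_image_le (s := range j) (f := fun i => s₀ + i • d)
      rw [card_range] at this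
      omega
    refine hne ?_
    have hRuniv : R = Finset.univ := by
      refine eq_univ_of_vadd_subset hd hRne fun x hx => ?_
      obtain ⟨y, hy, rfl⟩ := mem_vadd_finset.1 hx
      rw [hR, mem_sdiff] at hy
      rw [vadd_eq_add, hR, mem_sdiff]
      refine ⟨?_, fun hmem => ?_⟩
      · by_contra hout
        have h1 : d + y ∈ (d +ᵥ S) \ S :=
          mem_sdiff.2 ⟨vadd_mem_vadd_finset (a := d) hy.1, hout⟩
        have h2 : s₀ + j • d ∈ (d +ᵥ S) \ S := by
          refine mem_sdiff.2 ⟨?_, hj2⟩
          obtain ⟨i, rfl⟩ := Nat.exists_eq_succ_of_ne_zero hj0.ne'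
          rw [succ_nsmul', add_left_comm]
          exact vadd_mem_vadd_finset (a := d) (hmin i (Nat.lt_succ_self i))
        have h3 := card_le_one.1 h _ h1 _ h2
        refine hy.2 (mem_image.2 ⟨j - 1, mem_range.2 (by omega), ?_⟩)
        obtain ⟨i, rfl⟩ := Nat.exists_eq_succ_of_ne_zero hj0.ne'
        rw [succ_nsmul', add_left_comm] at h3
        exact (add_left_cancel h3).symm
      · rw [mem_image] at hmem
        obtain ⟨i, hi, hie⟩ := hmem
        rw [mem_range] at hi
        rcases Nat.eq_zero_or_pos i with rfl | hi0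
        · rw [zero_nsmul, add_zero] at hie
          exact hpre hne (by rw [hie, add_sub_cancel_left]; exact hy.1)
        · refine hy.2 (mem_image.2 ⟨i - 1, mem_range.2 (by omega), ?_⟩)
          obtain ⟨k, rfl⟩ := Nat.exists_eq_succ_of_ne_zero hi0.ne'
          rw [succ_nsmul', add_left_comm] at hie
          exact add_left_cancel hie
    exact eq_univ_of_forall fun x => (mem_sdiff.1 ((hR ▸ hRuniv).symm ▸ mem_univ x)).1
  have hinj : Set.InjOn (fun i : ℕ => s₀ + i • d) (range S.card) := by
    have hcard : S.card ≤ p := by simpa using card_le_univ S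
    intro i hi j hj hij
    rw [coe_range, Set.mem_Iio] at hi hj
    have h1 := add_left_cancel hij
    rw [nsmul_eq_mul, nsmul_eq_mul, mul_left_inj' hd, ZMod.natCast_eq_natCast_iff'] at h1
    rwa [Nat.mod_eq_of_lt (by omega), Nat.mod_eq_of_lt (by omega)] at h1
  refine ⟨s₀, (eq_of_subset_of_card_le ?_ ?_).symm⟩
  · intro x hx
    obtain ⟨i, hi, rfl⟩ := mem_image.1 hx
    exact hin i (mem_range.1 hi)
  · rw [card_image_of_injOn hinj, card_range]

end FA.Kneser
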