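import Mathlib.Algebra.Group.Pointwise.Finset.Basic
import Mathlib.Algebra.Pointwise.Stabilizer
import Mathlib.Algebra.Order.BigOperators.Group.Finset
import Mathlib.Tactic.Linarith
import Mathlib.Tactic.Abel

/-!
# The stabilizer of a finite set, as a finite set

The key lemma is that `|C| + |stab C|` of a union is at least the smaller of the two values.
-/

set_option autoImplicit false

namespace FA.Kneser

open Finset
open scoped Pointwise

variable {G : Type*} [AddCommGroup G] [DecidableEq G] {C D : Finset G} {g h : G}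

/-- The stabilizer of a nonempty finite set under translation. -/
def fstab (C : Finset G) : Finset G := (C - C).filter fun g => g +ᵥ C = C

theorem mem_fstab (hC : C.Nonempty) : g ∈ fstab C ↔ g +ᵥ C = C := by
  rw [fstab, mem_filter, and_iff_right_iff_imp]
  intro h
  obtain ⟨c, hc⟩ := hC
  refine mem_sub.2 ⟨g + c, ?_, c, hc, add_sub_cancel_right g c⟩
  rw [← h]
  exact vadd_mem_vadd_finset hc

theorem coe_fstab (hC : C.Nonempty) :
    (fstab C : Set G) = AddAction.stabilizer G (C : Set G) := by
  ext g
  rw [mem_coe, mem_fstab hC, SetLike.mem_coe, AddAction.mem_stabilizer_iff, ← coe_vadd_finset,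
    coe_inj]

theorem zero_mem_fstab (hC : C.Nonempty) : (0 : G) ∈ fstab C :=
  (mem_fstab hC).2 (zero_vadd _ _)

theorem fstab_nonempty (hC : C.Nonempty) : (fstab C).Nonempty := ⟨0, zero_mem_fstab hC⟩

theorem neg_mem_fstab (hC : C.Nonempty) (h : g ∈ fstab C) : -g ∈ fstab C := by
  rw [mem_fstab hC] at h ⊢
  exact neg_vadd_eq_iff.2 h.symm

theorem add_mem_fstab (hC : C.Nonempty) (hg : g ∈ fstab C) (hh : h ∈ fstab C) :
    g + h ∈ fstab C := by
  rw [mem_fstab hC] at hg hh ⊢
  rw [add_vadd, hh, hg]

theorem sub_mem_fstab (hC : C.Nonempty) (hg : g ∈ fstab C) (hh : h ∈ fstab C) :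
    g - h ∈ fstab C := by
  rw [sub_eq_add_neg]
  exact add_mem_fstab hC hg (neg_mem_fstab hC hh)

theorem add_fstab_mem_iff (hC : C.Nonempty) (hg : g ∈ fstab C) (x : G) :
    x + g ∈ C ↔ x ∈ C := by
  conv_lhs => rw [← (mem_fstab hC).1 hg, add_comm, ← vadd_eq_add, vadd_mem_vadd_finset_iff]

theorem add_fstab (hC : C.Nonempty) : C + fstab C = C := by
  refine subset_antisymm ?_ (fun x hx => mem_add.2 ⟨x, hx, 0, zero_mem_fstab hC, add_zero x⟩)
  intro x hx
  obtain ⟨c, hc, g, hg, rfl⟩ := mem_add.1 hx
  exact (add_fstab_mem_iff hC hg c).2 hc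

theorem fstab_add_fstab (hC : C.Nonempty) : fstab C + fstab C = fstab C := by
  refine subset_antisymm ?_ (fun x hx => mem_add.2 ⟨x, hx, 0, zero_mem_fstab hC, add_zero x⟩)
  intro x hx
  obtain ⟨a, ha, b, hb, rfl⟩ := mem_add.1 hx
  exact add_mem_fstab hC ha hb

/-- A set containing a translate of `K` has at least as many elements. -/
theorem card_le_of_translate {K P : Finset G} {x : G} (h : ∀ k ∈ K, x + k ∈ P) :
    K.card ≤ P.card := by
  rw [← card_vadd_finset x K]
  refine card_le_card fun y hy => ?_
  obtain ⟨k, hk, rfl⟩ := mem_vadd_finset.1 hy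
  exact h k hk

section Union

variable (hC : C.Nonempty) (hD : D.Nonempty)

include hC hD

/-- Half of the grid count: a point of `D \ C` gives a product set inside `D \ C`. -/
theorem mul_le_sdiff_mul (x : G) :
    ((fstab C).filter fun g => x + g ∈ D).card * ((fstab D).filter fun g => x + g ∉ C).card ≤
      (D \ C).card * (fstab C ∩ fstab D).card := by
  rw [← card_product, mul_comm]
  refine card_le_mul_card_image_of_maps_to (f := fun z => x + z.1 + z.2) (fun z hz => ?_) _
    (fun b _ => ?_)
  · rw [mem_product, mem_filter, mem_filter] at hz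
    obtain ⟨⟨h1, h2⟩, h3, h4⟩ := hz
    rw [mem_sdiff, add_fstab_mem_iff hD h3, add_right_comm, add_fstab_mem_iff hC h1]
    exact ⟨h2, h4⟩
  · rcases eq_empty_or_nonempty (((fstab C).filter fun g => x + g ∈ D) ×ˢ
      ((fstab D).filter fun g => x + g ∉ C)
      |>.filter fun z => x + z.1 + z.2 = b) with he | ⟨z₀, hz₀⟩
    · rw [he]
      simp
    rw [mem_filter, mem_product, mem_filter, mem_filter] at hz₀
    refine card_le_card_of_injOn (fun z => z.1 - z₀.1) (fun z hz => ?_) fun z hz w hw he => ?_
    · rw [mem_coe, mem_filter, mem_product, mem_filter, mem_filter] at hz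
      have e : z.1 - z₀.1 = z₀.2 - z.2 := by
        have h : z.1 + z.2 = z₀.1 + z₀.2 := by
          refine add_left_cancel (a := x) ?_
          rw [← add_assoc, ← add_assoc, hz.2, hz₀.2]
        rw [sub_eq_sub_iff_add_eq_add, h, add_comm]
      rw [mem_coe, mem_inter]
      refine ⟨sub_mem_fstab hC hz.1.1.1 hz₀.1.1.1, ?_⟩
      show z.1 - z₀.1 ∈ fstab D
      rw [e]
      exact sub_mem_fstab hD hz₀.1.2.1 hz.1.2.1
    · rw [mem_coe, mem_filter] at hz hw
      have h1 : z.1 = w.1 := sub_left_injective he
      have h2 : x + z.1 + z.2 = x + w.1 + w.2 := hz.2.trans hw.2.symm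
      rw [h1, add_left_cancel_iff] at h2
      exact Prod.ext h1 h2

/-- If `D \ C` is small but nonempty and `C \ D` is small, `D \ C` contains a full translate of
the stabilizer of `D`. -/
theorem card_fstab_le_sdiff (hne : (D \ C).Nonempty)
    (h1 : (D \ C).card + (fstab C ∩ fstab D).card < (fstab C).card)
    (h2 : (C \ D).card + (fstab C ∩ fstab D).card < (fstab D).card) :
    (fstab D).card ≤ (D \ C).card := by
  obtain ⟨x, hx⟩ := hne
  rw [mem_sdiff] at hx
  set K := fstab C ∩ fstab D with hK
  set P := (fstab C).filter fun g => x + g ∈ D with hP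
  set Q := (fstab D).filter fun g => x + g ∉ C with hQ
  set P' := (fstab C).filter fun g => ¬x + g ∈ D with hP'
  set Q' := (fstab D).filter fun g => ¬x + g ∉ C with hQ'
  have hPP : P.card + P'.card = (fstab C).card := card_filter_add_card_filter_not _
  have hQQ : Q.card + Q'.card = (fstab D).card := card_filter_add_card_filter_not _
  have hk : 1 ≤ K.card :=
    card_pos.2 ⟨0, mem_inter.2 ⟨zero_mem_fstab hC, zero_mem_fstab hD⟩⟩
  have hS : P.card * Q.card ≤ (D \ C).card * K.card := mul_le_sdiff_mul hC hD x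
  have hT : P'.card * Q'.card ≤ (C \ D).card * K.card := by
    have h := mul_le_sdiff_mul hD hC x
    rw [inter_comm, ← hK, mul_comm] at h
    simpa only [hP', hQ', not_not] using h
  have kP : K.card ≤ P.card := by
    refine card_le_of_translate (x := 0) fun k hk => ?_
    rw [zero_add, hP, mem_filter, add_fstab_mem_iff hD (mem_inter.1 hk).2]
    exact ⟨(mem_inter.1 hk).1, hx.1⟩
  have kQ : K.card ≤ Q.card := by
    refine card_le_of_translate (x := 0) fun k hk => ?_
    rw [zero_add, hQ, mem_filter, add_fstab_mem_iff hC (mem_inter.1 hk).1]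
    exact ⟨(mem_inter.1 hk).2, hx.2⟩
  have kP' : P'.Nonempty → K.card ≤ P'.card := fun ⟨g, hg⟩ => by
    rw [hP', mem_filter] at hg
    refine card_le_of_translate (x := g) fun k hk => ?_
    rw [hP', mem_filter, ← add_assoc, add_fstab_mem_iff hD (mem_inter.1 hk).2]
    exact ⟨add_mem_fstab hC hg.1 (mem_inter.1 hk).1, hg.2⟩
  have kQ' : Q'.Nonempty → K.card ≤ Q'.card := fun ⟨g, hg⟩ => by
    rw [hQ', mem_filter] at hg
    refine card_le_of_translate (x := g) fun k hk => ?_
    rw [hQ', mem_filter, ← add_assoc, add_fstab_mem_iff hC (mem_inter.1 hk).1]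
    exact ⟨add_mem_fstab hD hg.1 (mem_inter.1 hk).2, hg.2⟩
  rcases P'.eq_empty_or_nonempty with hP0 | hP0
  · rw [hP0, card_empty, add_zero] at hPP
    nlinarith
  rcases Q'.eq_empty_or_nonempty with hQ0 | hQ0
  · rw [hQ0, card_empty, add_zero] at hQQ
    by_contra hc
    nlinarith
  have := kP' hP0
  have := kQ' hQ0
  nlinarith

/-- `|C ∪ D| + |stab (C ∪ D)|` is at least one of the two values. -/
theorem card_add_card_fstab_union :
    C.card + (fstab C).card ≤ (C ∪ D).card + (fstab (C ∪ D)).card ∨
      D.card + (fstab D).card ≤ (C ∪ D).card + (fstab (C ∪ D)).card := by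
  have hU : (C ∪ D).Nonempty := hC.mono subset_union_left
  rcases (D \ C).eq_empty_or_nonempty with h | hS
  · exact Or.inl (by rw [union_eq_left.2 (sdiff_eq_empty_iff_subset.1 h)])
  rcases (C \ D).eq_empty_or_nonempty with h | hT
  · exact Or.inr (by rw [union_eq_right.2 (sdiff_eq_empty_iff_subset.1 h)])
  by_contra hc
  rw [not_or, not_le, not_le] at hc
  have hK : (fstab C ∩ fstab D).card ≤ (fstab (C ∪ D)).card := by
    refine card_le_card fun g hg => ?_
    rw [mem_inter, mem_fstab hC, mem_fstab hD] at hg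
    rw [mem_fstab hU, vadd_finset_union, hg.1, hg.2]
  have e1 : (C ∪ D).card = (D \ C).card + C.card := by
    rw [union_comm, card_sdiff_add_card]
  have e2 : (C ∪ D).card = (C \ D).card + D.card := by rw [card_sdiff_add_card]
  have a1 : (D \ C).card + (fstab C ∩ fstab D).card < (fstab C).card := by omega
  have a2 : (C \ D).card + (fstab C ∩ fstab D).card < (fstab D).card := by omega
  have b1 := card_fstab_le_sdiff hC hD hS a1 a2
  have b2 := card_fstab_le_sdiff hD hC hT (by rwa [inter_comm] at a2) (by rwa [inter_comm] at a1)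
  omega

end Union

end FA.Kneser
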