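import Fermat.Agent.Kneser.Progression
import Mathlib.Combinatorics.Additive.CauchyDavenport

/-!
# Vosper's theorem

If `|A|, |B| ≥ 2`, `|A + B| ≤ |A| + |B| - 1` and `|A + B| ≤ p - 2` in `ℤ / p`, then `A` and `B`
are progressions with the same difference. Induction on `|B|`.
-/

set_option autoImplicit false

namespace FA.Kneser

open Finset
open scoped Pointwise

variable {p : ℕ} [Fact p.Prime] {d : ZMod p} {A B : Finset (ZMod p)}

/-- If `B` is a progression, so is `A`. -/
theorem isProg_left (hA : A.Nonempty) (hB : 2 ≤ B.card) (hBd : IsProg d B)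
    (h : (A + B).card + 1 ≤ A.card + B.card) (hp : (A + B).card < p) : IsProg d A := by
  have hpp : p.Prime := Fact.out
  set B₀ := B.filter fun x => d + x ∈ B with hB₀
  have hsplit := card_filter_add_card_filter_not (s := B) (fun x => d + x ∈ B)
  have hout : (B.filter fun x => ¬d + x ∈ B).card ≤ 1 := by
    refine le_trans (le_of_eq ?_) hBd
    rw [← card_vadd_finset d (B.filter fun x => ¬d + x ∈ B)]
    refine congrArg card ?_
    ext x
    simp only [mem_sdiff, ← neg_vadd_mem_iff (a := d), mem_filter, vadd_eq_add,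
      add_neg_cancel_left]
  have hB₀ne : B₀.Nonempty := by
    rw [← card_pos, hB₀]
    omega
  have hsub : (A ∪ (d +ᵥ A)) + B₀ ⊆ A + B := by
    intro x hx
    obtain ⟨u, hu, v, hv, rfl⟩ := mem_add.1 hx
    rw [hB₀, mem_filter] at hv
    rcases mem_union.1 hu with hu | hu
    · exact add_mem_add hu hv.1
    · obtain ⟨w, hw, rfl⟩ := mem_vadd_finset.1 hu
      exact mem_add.2 ⟨w, hw, d + v, hv.2, by rw [vadd_eq_add]; abel⟩
  have hcd := ZMod.cauchy_davenport hpp (hA.mono (subset_union_left (s₂ := d +ᵥ A))) hB₀ne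
  have hle := card_le_card hsub
  have e : (A ∪ (d +ᵥ A)).card = ((d +ᵥ A) \ A).card + A.card := by
    rw [union_comm, card_sdiff_add_card]
  have h0 : B₀.card = (B.filter fun x => d + x ∈ B).card := by rw [hB₀]
  show ((d +ᵥ A) \ A).card ≤ 1
  omega

/-- The dual pair `(A, -(A + B)ᶜ)`. -/
theorem isProg_of_isProg_add (hA : A.Nonempty) (hB : B.Nonempty)
    (hC : IsProg d (A + B)) (h : (A + B).card + 1 ≤ A.card + B.card)
    (hp : (A + B).card + 2 ≤ p) : IsProg d A := by
  have hC' := hC.compl.neg
  have hcard : (A + B).card + (A + B)ᶜ.card = p := by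
    rw [card_add_card_compl, ZMod.card]
  have hsub : A + -(A + B)ᶜ ⊆ (-B)ᶜ := by
    intro x hx
    obtain ⟨a, ha, c, hc, rfl⟩ := mem_add.1 hx
    rw [mem_neg', mem_compl] at hc
    rw [mem_compl, mem_neg']
    refine fun hb => hc (mem_add.2 ⟨a, ha, _, hb, ?_⟩)
    abel
  have hle := card_le_card hsub
  rw [card_compl, card_neg, ZMod.card] at hle
  have hBp : B.card ≤ p := by simpa using card_le_univ B
  have hBpos : 0 < B.card := card_pos.2 hB
  exact isProg_left hA (by rw [card_neg]; omega) hC' (by rw [card_neg]; omega) (by omega)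

theorem exists_isProg : ∀ (n : ℕ) (A B : Finset (ZMod p)), B.card = n → 2 ≤ A.card → 2 ≤ n →
    (A + B).card + 1 ≤ A.card + B.card → (A + B).card + 2 ≤ p →
    ∃ d : ZMod p, d ≠ 0 ∧ IsProg d A ∧ IsProg d B := by
  have hpp : p.Prime := Fact.out
  intro n
  induction n using Nat.strong_induction_on with
  | _ n ih =>
  intro A B hn hA hB h hp
  have hAne : A.Nonempty := card_pos.1 (by omega)
  have hBne : B.Nonempty := card_pos.1 (by omega)
  rcases Nat.eq_or_lt_of_le hB with h2 | h3
  · rw [← hn] at h2
    obtain ⟨x, y, hxy, rfl⟩ := card_eq_two.1 h2.symm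
    have hd : y - x ≠ 0 := sub_ne_zero.2 (Ne.symm hxy)
    have hprog : IsProg (y - x) {x, y} := by
      refine le_trans (card_le_card (t := {(y - x) + y}) fun z hz => ?_) (card_singleton _).le
      rw [mem_sdiff, mem_vadd_finset] at hz
      obtain ⟨⟨w, hw, rfl⟩, hz2⟩ := hz
      rw [mem_insert, mem_singleton] at hw
      rcases hw with rfl | rfl
      · simp at hz2
      · simp
    exact ⟨y - x, hd, isProg_left hAne (by rw [← h2]) hprog h (by omega), hprog⟩
  · obtain ⟨b₀, hb₀⟩ := hBne
    have hex : ∃ e ∈ A, 2 ≤ (A ∩ ((e - b₀) +ᵥ B)).card ∧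
        (A ∩ ((e - b₀) +ᵥ B)).card < B.card := by
      by_contra! hc
      have hmem : ∀ e ∈ A, e ∈ A ∩ ((e - b₀) +ᵥ B) := fun e he =>
        mem_inter.2 ⟨he, mem_vadd_finset.2 ⟨b₀, hb₀, by rw [vadd_eq_add, sub_add_cancel]⟩⟩
      set X := A.filter fun e => ¬((e - b₀) +ᵥ B ⊆ A) with hX
      have hXe : ∀ e ∈ X, A ∩ ((e - b₀) +ᵥ B) = {e} ∧
          A ∪ ((e - b₀) +ᵥ B) = (-b₀) +ᵥ (A + B) := by
        intro e he
        rw [hX, mem_filter] at he
        obtain ⟨he1, he2⟩ := he
        have hone : (A ∩ ((e - b₀) +ᵥ B)).card = 1 := by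
          have h1 := card_pos.2 ⟨e, hmem e he1⟩
          by_contra hne
          have h2 := hc e he1 (by omega)
          refine he2 ?_
          have := eq_of_subset_of_card_le (inter_subset_right (s₁ := A)
            (s₂ := (e - b₀) +ᵥ B)) (by rw [card_vadd_finset]; omega)
          exact inter_eq_right.1 this
        obtain ⟨z, hz⟩ := card_eq_one.1 hone
        have hze : z = e := (mem_singleton.1 (hz ▸ hmem e he1)).symm
        refine ⟨hze ▸ hz, eq_of_subset_of_card_le ?_ ?_⟩
        · intro x hx
          rw [mem_vadd_finset]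
          rcases mem_union.1 hx with hx | hx
          · exact ⟨x + b₀, add_mem_add hx hb₀, by rw [vadd_eq_add]; abel⟩
          · obtain ⟨b, hb, rfl⟩ := mem_vadd_finset.1 hx
            exact ⟨e + b, add_mem_add he1 hb, by rw [vadd_eq_add, vadd_eq_add]; abel⟩
        · have := card_union_add_card_inter A ((e - b₀) +ᵥ B)
          rw [hone, card_vadd_finset] at this
          rw [card_vadd_finset]
          omega
      have hXone : X.card ≤ 1 := by
        rw [card_le_one]
        intro e he e' he'
        by_contra hne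
        obtain ⟨k1, k2⟩ := hXe e he
        obtain ⟨k1', k2'⟩ := hXe e' he'
        set W := B.erase b₀ with hW
        have hWe : ∀ f, (A ∩ ((f - b₀) +ᵥ B) = {f}) →
            (f - b₀) +ᵥ W = (A ∪ ((f - b₀) +ᵥ B)) \ A := by
          intro f hf
          ext x
          simp only [mem_sdiff, mem_union, hW, ← neg_vadd_mem_iff (a := f - b₀), mem_erase,
            vadd_eq_add]
          constructor
          · rintro ⟨h1, h2⟩
            refine ⟨Or.inr h2, fun h3 => h1 ?_⟩
            have : x ∈ A ∩ ((f - b₀) +ᵥ B) := by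
              rw [mem_inter, ← neg_vadd_mem_iff, vadd_eq_add]
              exact ⟨h3, h2⟩
            rw [hf, mem_singleton] at this
            rw [this]
            abel
          · rintro ⟨h1 | h1, h2⟩
            · exact absurd h1 h2
            · refine ⟨fun h3 => h2 ?_, h1⟩
              have : f ∈ A ∩ ((f - b₀) +ᵥ B) := by rw [hf]; exact mem_singleton_self f
              have e : x = f := by
                have h4 : x = (f - b₀) + b₀ := neg_add_eq_iff_eq_add.1 h3
                rwa [sub_add_cancel] at h4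
              rw [e]
              exact (mem_inter.1 this).1
        have h5 : (e - b₀) +ᵥ W = (e' - b₀) +ᵥ W := by rw [hWe e k1, hWe e' k1', k2, k2']
        have hWne : W.Nonempty := card_pos.1 (by rw [hW, card_erase_of_mem hb₀]; omega)
        have h6 : (e - e') +ᵥ W = W := by
          rw [show e - e' = -(e' - b₀) + (e - b₀) by abel, add_vadd, h5, ← add_vadd,
            neg_add_cancel, zero_vadd]
        have h7 := eq_univ_of_vadd_subset (sub_ne_zero.2 hne) hWne h6.subset
        have h8 : b₀ ∈ W := by rw [h7]; exact mem_univ _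
        simp [hW] at h8
      have hsub : (A \ X) + B ⊆ b₀ +ᵥ A := by
        intro x hx
        obtain ⟨e, he, b, hb, rfl⟩ := mem_add.1 hx
        rw [mem_sdiff, hX, mem_filter, not_and, not_not] at he
        refine mem_vadd_finset.2 ⟨e - b₀ + b, he.2 he.1 (vadd_mem_vadd_finset hb), ?_⟩
        rw [vadd_eq_add]
        abel
      have hle := card_le_card hsub
      rw [card_vadd_finset] at hle
      have hAX : A.card ≤ (A \ X).card + 1 := by
        have := card_le_card_sdiff_add_card (s := A) (t := X)
        omega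
      have hcd := ZMod.cauchy_davenport hpp
        (card_pos.1 (by omega : 0 < (A \ X).card)) ⟨b₀, hb₀⟩
      have hA' : A.card ≤ (A + B).card := card_le_card_add_right ⟨b₀, hb₀⟩
      omega
    obtain ⟨e, he, h2, h4⟩ := hex
    set t := e - b₀ with ht
    set A' := A ∪ (t +ᵥ B) with hA'
    set B' := (-t) +ᵥ (A ∩ (t +ᵥ B)) with hB'
    have hB'card : B'.card = (A ∩ (t +ᵥ B)).card := card_vadd_finset _ _
    have hsub : A' + B' ⊆ A + B := by
      intro x hx
      obtain ⟨u, hu, v, hv, rfl⟩ := mem_add.1 hx
      obtain ⟨w, hw, rfl⟩ := mem_vadd_finset.1 hv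
      rw [mem_inter] at hw
      rcases mem_union.1 hu with hu | hu
      · refine add_mem_add hu ?_
        have := (neg_vadd_mem_iff (a := t)).2 hw.2
        exact this
      · obtain ⟨b, hb, rfl⟩ := mem_vadd_finset.1 hu
        refine mem_add.2 ⟨w, hw.1, b, hb, ?_⟩
        simp only [vadd_eq_add]
        abel
    have hsum : A'.card + B'.card = A.card + B.card := by
      rw [hB'card, hA', card_union_add_card_inter, card_vadd_finset]
    have hA'2 : 2 ≤ A'.card := hA.trans (card_le_card subset_union_left)
    have hle := card_le_card hsub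
    obtain ⟨d, hd, pA, pB⟩ := ih B'.card (by omega) A' B' rfl hA'2 (by omega) (by omega) (by omega)
    have hcd := ZMod.cauchy_davenport hpp (card_pos.1 (by omega : 0 < A'.card))
      (card_pos.1 (by omega : 0 < B'.card))
    have heq : A' + B' = A + B := eq_of_subset_of_card_le hsub (by omega)
    obtain ⟨a, hA'e⟩ := pA.exists_eq_image hd (card_pos.1 (by omega))
    obtain ⟨b, hB'e⟩ := pB.exists_eq_image hd (card_pos.1 (by omega))
    have hC : IsProg d (A + B) := by
      refine le_trans (card_le_card (t := {(a + b) + (A'.card + B'.card - 1) • d}) fun x hx => ?_)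
        (card_singleton _).le
      rw [mem_sdiff] at hx
      obtain ⟨y, hy, rfl⟩ := mem_vadd_finset.1 hx.1
      rw [← heq, hA'e, hB'e, mem_add] at hy
      obtain ⟨u, hu, v, hv, rfl⟩ := hy
      rw [mem_image] at hu hv
      obtain ⟨i, hi, rfl⟩ := hu
      obtain ⟨j, hj, rfl⟩ := hv
      rw [mem_range] at hi hj
      rw [mem_singleton]
      rcases Nat.lt_or_ge (i + 1) A'.card with hi' | hi'
      · refine absurd ?_ hx.2
        rw [← heq]
        refine mem_add.2 ⟨a + (i + 1) • d, ?_, b + j • d, ?_, ?_⟩
        · rw [hA'e]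
          exact mem_image_of_mem _ (mem_range.2 hi')
        · rw [hB'e]
          exact mem_image_of_mem _ (mem_range.2 hj)
        · rw [vadd_eq_add, succ_nsmul]
          abel
      · rcases Nat.lt_or_ge (j + 1) B'.card with hj' | hj'
        · refine absurd ?_ hx.2
          rw [← heq]
          refine mem_add.2 ⟨a + i • d, ?_, b + (j + 1) • d, ?_, ?_⟩
          · rw [hA'e]
            exact mem_image_of_mem _ (mem_range.2 hi)
          · rw [hB'e]
            exact mem_image_of_mem _ (mem_range.2 hj')
          · rw [vadd_eq_add, succ_nsmul]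
            abel
        · rw [show A'.card + B'.card - 1 = i + j + 1 by omega, vadd_eq_add, add_nsmul, add_nsmul,
            one_nsmul]
          abel
    refine ⟨d, hd, isProg_of_isProg_add hAne ⟨b₀, hb₀⟩ hC h hp, ?_⟩
    refine isProg_of_isProg_add ⟨b₀, hb₀⟩ hAne ?_ ?_ ?_ <;> rw [add_comm B A]
    · exact hC
    · omega
    · exact hp

/-- **Vosper's theorem.** -/
theorem vosper_prog (hA : 2 ≤ A.card) (hB : 2 ≤ B.card)
    (h : (A + B).card + 1 ≤ A.card + B.card) (hp : (A + B).card + 2 ≤ p) :
    ∃ d a b : ZMod p, d ≠ 0 ∧ A = (range A.card).image (fun i => a + i • d) ∧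
      B = (range B.card).image (fun i => b + i • d) := by
  obtain ⟨d, hd, pA, pB⟩ := exists_isProg B.card A B rfl hA hB h hp
  obtain ⟨a, ha⟩ := pA.exists_eq_image hd (card_pos.1 (by omega))
  obtain ⟨b, hb⟩ := pB.exists_eq_image hd (card_pos.1 (by omega))
  exact ⟨d, a, b, hd, ha, hb⟩

end FA.Kneser
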